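import Mathlib

/-!
# S52, step (C) glue: Klein's icosahedral forms along a line (helper49)

Self-contained definitions of Klein's forms `kF` (degree 12), `kH` (degree 20), `kT` (degree 30)
over an arbitrary commutative ring (same formulas as everywhere else in `Fermat/Agent/S52`), the
syzygy `kT ^ 2 + kH ^ 3 = 1728 * kF ^ 5`, Euler's identity, and explicit Bezout identities for
the pairs `(kH, kT)` and `(∂kF/∂u, ∂kF/∂v)`.

For a field `K` of characteristic zero and two independent vectors `p₀ = (u0, v0)`,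
`q₀ = (a, b)` of `K²` (`u0 * b - v0 * a ≠ 0`) we study the restriction of the forms to the line
`p₀ + t q₀`, i.e. the polynomials `kF U V`, `kH U V`, `kT U V ∈ K[X]` with
`U = C u0 + C a * X`, `V = C v0 + C b * X`:

* `isCoprime_kH_kT_line` : `kH U V` and `kT U V` are coprime;
* `separable_kF_line` : `kF U V` is separable (the twelve cusps stay distinct);
* `le_natDegree_kF_line` : `11 ≤ natDegree (kF U V)`;
* `natDegree_kH_line_le`, `natDegree_kT_line_le` : degree bounds `20`, `30`.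

These are exactly the inputs needed to show that the `3`-division polynomial of the twisted
Klein family has no root in `K[t]`.
-/

set_option autoImplicit false

open Polynomial

namespace Fermat.Agent.S52.CGlue.KleinLine49

section Forms

variable {R : Type*} [CommRing R]

/-- Klein's degree-12 form `f = u v (u¹⁰ + 11 u⁵ v⁵ - v¹⁰)`. -/
def kF (u v : R) : R := u * v * (u ^ 10 + 11 * u ^ 5 * v ^ 5 - v ^ 10)

/-- Klein's degree-20 form `H`. -/
def kH (u v : R) : R :=
  -(u ^ 20 + v ^ 20) + 228 * (u ^ 15 * v ^ 5 - u ^ 5 * v ^ 15) - 494 * u ^ 10 * v ^ 10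

/-- Klein's degree-30 form `T`. -/
def kT (u v : R) : R :=
  u ^ 30 + v ^ 30 + 522 * (u ^ 25 * v ^ 5 - u ^ 5 * v ^ 25)
    - 10005 * (u ^ 20 * v ^ 10 + u ^ 10 * v ^ 20)

/-- `∂f/∂u`. -/
def kFu (u v : R) : R := v * (11 * u ^ 10 + 66 * u ^ 5 * v ^ 5 - v ^ 10)

/-- `∂f/∂v`. -/
def kFv (u v : R) : R := u * (u ^ 10 + 66 * u ^ 5 * v ^ 5 - 11 * v ^ 10)

/-- Klein's syzygy. -/
theorem klein_relation (u v : R) : kT u v ^ 2 + kH u v ^ 3 = 1728 * kF u v ^ 5 := by
  unfold kT kH kF
  ring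

/-- Euler's identity for `f`. -/
theorem euler_kF (u v : R) : u * kFu u v + v * kFv u v = 12 * kF u v := by
  unfold kFu kFv kF
  ring

/-- The determinant of `p` and `(f_v, -f_u)(p)`. -/
theorem det_gradPerp (u v : R) : u * (-kFu u v) - v * kFv u v = -12 * kF u v := by
  unfold kFu kFv kF
  ring

/-- Bezout identity for `(H, T)`, power of `u`. -/
theorem bezout_HT_u (u v : R) :
    (-950431323 * (u ^ 5) ^ 5 + 20237705983 * (u ^ 5) ^ 4 * v ^ 5
        + 103588896 * (u ^ 5) ^ 3 * (v ^ 5) ^ 2 + 20237108822 * (u ^ 5) ^ 2 * (v ^ 5) ^ 3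
        + 1055557719 * u ^ 5 * (v ^ 5) ^ 4 - 2022161 * (v ^ 5) ^ 5) * kH u v
      + (455818677 * (u ^ 5) ^ 3 - 1001301767 * (u ^ 5) ^ 2 * v ^ 5
        - 461063031 * u ^ 5 * (v ^ 5) ^ 2 - 2022161 * (v ^ 5) ^ 3) * kT u v
      = 1406250000 * u ^ 45 := by
  unfold kH kT
  ring

/-- Bezout identity for `(H, T)`, power of `v`. -/
theorem bezout_HT_v (u v : R) :
    (2022161 * (u ^ 5) ^ 5 + 1055557719 * (u ^ 5) ^ 4 * v ^ 5
        - 20237108822 * (u ^ 5) ^ 3 * (v ^ 5) ^ 2 + 103588896 * (u ^ 5) ^ 2 * (v ^ 5) ^ 3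
        - 20237705983 * u ^ 5 * (v ^ 5) ^ 4 - 950431323 * (v ^ 5) ^ 5) * kH u v
      + (2022161 * (u ^ 5) ^ 3 - 461063031 * (u ^ 5) ^ 2 * v ^ 5
        + 1001301767 * u ^ 5 * (v ^ 5) ^ 2 + 455818677 * (v ^ 5) ^ 3) * kT u v
      = 1406250000 * v ^ 45 := by
  unfold kH kT
  ring

/-- Bezout identity for `(f_u, f_v)`, power of `u`. -/
theorem bezout_grad_u (u v : R) :
    (-(v ^ 4 * (66 * u ^ 6 - 11 * u * v ^ 5) * (u * (748 * u ^ 5 - 121 * v ^ 5)))) * kFu u v
      + (7500 * u ^ 16 - v ^ 4 * (66 * u ^ 6 - 11 * u * v ^ 5) * (v * (-728 * u ^ 5 + 11 * v ^ 5)))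
        * kFv u v
      = 7500 * u ^ 27 := by
  unfold kFu kFv
  ring

/-- Bezout identity for `(f_u, f_v)`, power of `v`. -/
theorem bezout_grad_v (u v : R) :
    (-(7500 * v ^ 16) + u ^ 4 * (11 * u ^ 5 * v + 66 * v ^ 6) * (u * (11 * u ^ 5 + 728 * v ^ 5)))
        * kFu u v
      + (u ^ 4 * (11 * u ^ 5 * v + 66 * v ^ 6) * (v * (-121 * u ^ 5 - 748 * v ^ 5))) * kFv u v
      = 7500 * v ^ 27 := by
  unfold kFu kFv
  ring

variable {S : Type*} [CommRing S]

theorem map_kF (f : R →+* S) (u v : R) : f (kF u v) = kF (f u) (f v) := by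
  simp [kF, map_ofNat]

theorem map_kH (f : R →+* S) (u v : R) : f (kH u v) = kH (f u) (f v) := by
  simp [kH, map_ofNat]

theorem map_kT (f : R →+* S) (u v : R) : f (kT u v) = kT (f u) (f v) := by
  simp [kT, map_ofNat]

end Forms

section Line

variable {K : Type*} [Field K]

/-- the derivative of `f` along a polynomial curve. -/
theorem derivative_kF (U V : K[X]) :
    derivative (kF U V) = kFu U V * derivative U + kFv U V * derivative V := by
  unfold kF kFu kFv
  simp only [derivative_mul, derivative_sub, derivative_add, derivative_pow, derivative_ofNat,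
    Nat.cast_ofNat, map_ofNat]
  ring

variable (u0 v0 a b : K)

/-- first coordinate along the line `p₀ + t q₀`. -/
noncomputable def lineU : K[X] := C u0 + C a * X

/-- second coordinate along the line `p₀ + t q₀`. -/
noncomputable def lineV : K[X] := C v0 + C b * X

theorem derivative_lineU : derivative (lineU u0 a) = C a := by
  simp [lineU]

theorem derivative_lineV : derivative (lineV v0 b) = C b := by
  simp [lineV]

theorem det_line : C b * lineU u0 a - C a * lineV v0 b = C (u0 * b - v0 * a) := by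
  simp only [lineU, lineV, map_sub, map_mul]
  ring

variable {u0 v0 a b}

theorem isCoprime_line (hδ : u0 * b - v0 * a ≠ 0) : IsCoprime (lineU u0 a) (lineV v0 b) := by
  refine ⟨C (u0 * b - v0 * a)⁻¹ * C b, -(C (u0 * b - v0 * a)⁻¹ * C a), ?_⟩
  have h := det_line u0 v0 a b
  calc C (u0 * b - v0 * a)⁻¹ * C b * lineU u0 a + -(C (u0 * b - v0 * a)⁻¹ * C a) * lineV v0 b
      = C (u0 * b - v0 * a)⁻¹ * (C b * lineU u0 a - C a * lineV v0 b) := by ring
    _ = C (u0 * b - v0 * a)⁻¹ * C (u0 * b - v0 * a) := by rw [h]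
    _ = 1 := by rw [← C_mul, inv_mul_cancel₀ hδ, C_1]

/-- `H` and `T` stay coprime along a line not through the origin. -/
theorem isCoprime_kH_kT_line [CharZero K] (hδ : u0 * b - v0 * a ≠ 0) :
    IsCoprime (kH (lineU u0 a) (lineV v0 b)) (kT (lineU u0 a) (lineV v0 b)) := by
  obtain ⟨s, t, hst⟩ := (isCoprime_line hδ).pow (m := 45) (n := 45)
  have hu := bezout_HT_u (lineU u0 a) (lineV v0 b)
  have hv := bezout_HT_v (lineU u0 a) (lineV v0 b)
  have hc : (1406250000 : K) ≠ 0 := by norm_num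
  set U := lineU u0 a
  set V := lineV v0 b
  refine ⟨C (1406250000 : K)⁻¹ *
      (s * (-950431323 * (U ^ 5) ^ 5 + 20237705983 * (U ^ 5) ^ 4 * V ^ 5
        + 103588896 * (U ^ 5) ^ 3 * (V ^ 5) ^ 2 + 20237108822 * (U ^ 5) ^ 2 * (V ^ 5) ^ 3
        + 1055557719 * U ^ 5 * (V ^ 5) ^ 4 - 2022161 * (V ^ 5) ^ 5)
       + t * (2022161 * (U ^ 5) ^ 5 + 1055557719 * (U ^ 5) ^ 4 * V ^ 5
        - 20237108822 * (U ^ 5) ^ 3 * (V ^ 5) ^ 2 + 103588896 * (U ^ 5) ^ 2 * (V ^ 5) ^ 3
        - 20237705983 * U ^ 5 * (V ^ 5) ^ 4 - 950431323 * (V ^ 5) ^ 5)),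
    C (1406250000 : K)⁻¹ *
      (s * (455818677 * (U ^ 5) ^ 3 - 1001301767 * (U ^ 5) ^ 2 * V ^ 5
        - 461063031 * U ^ 5 * (V ^ 5) ^ 2 - 2022161 * (V ^ 5) ^ 3)
       + t * (2022161 * (U ^ 5) ^ 3 - 461063031 * (U ^ 5) ^ 2 * V ^ 5
        + 1001301767 * U ^ 5 * (V ^ 5) ^ 2 + 455818677 * (V ^ 5) ^ 3)), ?_⟩
  have hC : C (1406250000 : K)⁻¹ * (1406250000 : K[X]) = 1 := by
    rw [← map_ofNat C 1406250000, ← C_mul, inv_mul_cancel₀ hc, C_1]
  linear_combination (C (1406250000 : K)⁻¹ * s) * hu + (C (1406250000 : K)⁻¹ * t) * hv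
    + (s * U ^ 45 + t * V ^ 45) * hC + hst

/-- `f` restricted to a line not through the origin is separable: the twelve cusps stay
distinct. -/
theorem separable_kF_line [CharZero K] (hδ : u0 * b - v0 * a ≠ 0) :
    (kF (lineU u0 a) (lineV v0 b)).Separable := by
  obtain ⟨s, t, hst⟩ := (isCoprime_line hδ).pow (m := 27) (n := 27)
  have hu := bezout_grad_u (lineU u0 a) (lineV v0 b)
  have hv := bezout_grad_v (lineU u0 a) (lineV v0 b)
  have he := euler_kF (lineU u0 a) (lineV v0 b)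
  have hd := derivative_kF (lineU u0 a) (lineV v0 b)
  rw [derivative_lineU, derivative_lineV] at hd
  have hdet := det_line u0 v0 a b
  have hc : (7500 : K) * (u0 * b - v0 * a) ≠ 0 := mul_ne_zero (by norm_num) hδ
  set U := lineU u0 a
  set V := lineV v0 b
  set P := kF U V
  set Fu := kFu U V
  set Fv := kFv U V
  set δ := u0 * b - v0 * a
  -- `δ * Fu` and `δ * Fv` are combinations of `P` and `P'`
  have hFu : C δ * Fu = C b * (12 * P) - V * derivative P := by
    rw [hd]
    linear_combination (-Fu) * hdet + C b * he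
  have hFv : C δ * Fv = -(C a * (12 * P)) + U * derivative P := by
    rw [hd]
    linear_combination (-Fv) * hdet - C a * he
  set A1 : K[X] := -(V ^ 4 * (66 * U ^ 6 - 11 * U * V ^ 5) * (U * (748 * U ^ 5 - 121 * V ^ 5)))
  set B1 : K[X] := 7500 * U ^ 16
    - V ^ 4 * (66 * U ^ 6 - 11 * U * V ^ 5) * (V * (-728 * U ^ 5 + 11 * V ^ 5))
  set A2 : K[X] := -(7500 * V ^ 16)
    + U ^ 4 * (11 * U ^ 5 * V + 66 * V ^ 6) * (U * (11 * U ^ 5 + 728 * V ^ 5))
  set B2 : K[X] := U ^ 4 * (11 * U ^ 5 * V + 66 * V ^ 6) * (V * (-121 * U ^ 5 - 748 * V ^ 5))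
  have hC : C (7500 * δ)⁻¹ * ((7500 : K[X]) * C δ) = 1 := by
    rw [← map_ofNat C 7500, ← C_mul, ← C_mul, inv_mul_cancel₀ hc, C_1]
  refine ⟨C (7500 * δ)⁻¹ * ((s * A1 + t * A2) * (C b * 12) - (s * B1 + t * B2) * (C a * 12)),
    C (7500 * δ)⁻¹ * (-(s * A1 + t * A2) * V + (s * B1 + t * B2) * U), ?_⟩
  linear_combination (-(C (7500 * δ)⁻¹ * (s * A1 + t * A2))) * hFu
    - (C (7500 * δ)⁻¹ * (s * B1 + t * B2)) * hFv
    + (C (7500 * δ)⁻¹ * C δ * s) * hu + (C (7500 * δ)⁻¹ * C δ * t) * hv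
    + (s * U ^ 27 + t * V ^ 27) * hC + hst

theorem natDegree_lineU_le : (lineU u0 a).natDegree ≤ 1 := by
  unfold lineU
  compute_degree

theorem natDegree_lineV_le : (lineV v0 b).natDegree ≤ 1 := by
  unfold lineV
  compute_degree

theorem coeff_one_lineU : (lineU u0 a).coeff 1 = a := by
  simp [lineU]

theorem coeff_one_lineV : (lineV v0 b).coeff 1 = b := by
  simp [lineV]

/-- top coefficient of a monomial in the coordinates of the line. -/
theorem coeff_monomial_line (m n : ℕ) :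
    ((lineU u0 a) ^ m * (lineV v0 b) ^ n).coeff (m + n) = a ^ m * b ^ n := by
  have hU : ((lineU u0 a) ^ m).natDegree ≤ m := by
    simpa using natDegree_pow_le_of_le m (natDegree_lineU_le (u0 := u0) (a := a))
  have hV : ((lineV v0 b) ^ n).natDegree ≤ n := by
    simpa using natDegree_pow_le_of_le n (natDegree_lineV_le (v0 := v0) (b := b))
  rw [coeff_mul_add_eq_of_natDegree_le hU hV]
  have h1 := coeff_pow_of_natDegree_le (m := m) (natDegree_lineU_le (u0 := u0) (a := a))
  have h2 := coeff_pow_of_natDegree_le (m := n) (natDegree_lineV_le (v0 := v0) (b := b))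
  rw [mul_one] at h1 h2
  rw [h1, h2, coeff_one_lineU, coeff_one_lineV]

theorem coeff_kF_line_twelve : (kF (lineU u0 a) (lineV v0 b)).coeff 12 = kF a b := by
  have h : kF (lineU u0 a) (lineV v0 b) =
      (lineU u0 a) ^ 11 * (lineV v0 b) ^ 1 + 11 * ((lineU u0 a) ^ 6 * (lineV v0 b) ^ 6)
        - (lineU u0 a) ^ 1 * (lineV v0 b) ^ 11 := by
    unfold kF
    ring
  rw [h, coeff_sub, coeff_add, coeff_ofNat_mul]
  rw [coeff_monomial_line 11 1, coeff_monomial_line 6 6, coeff_monomial_line 1 11]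
  unfold kF
  ring

theorem coeff_kFu_line_eleven : (kFu (lineU u0 a) (lineV v0 b)).coeff 11 = kFu a b := by
  have h : kFu (lineU u0 a) (lineV v0 b) =
      11 * ((lineU u0 a) ^ 10 * (lineV v0 b) ^ 1) + 66 * ((lineU u0 a) ^ 5 * (lineV v0 b) ^ 6)
        - (lineU u0 a) ^ 0 * (lineV v0 b) ^ 11 := by
    unfold kFu
    ring
  rw [h, coeff_sub, coeff_add, coeff_ofNat_mul, coeff_ofNat_mul]
  rw [coeff_monomial_line 10 1, coeff_monomial_line 5 6, coeff_monomial_line 0 11]
  unfold kFu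
  ring

theorem coeff_kFv_line_eleven : (kFv (lineU u0 a) (lineV v0 b)).coeff 11 = kFv a b := by
  have h : kFv (lineU u0 a) (lineV v0 b) =
      (lineU u0 a) ^ 11 * (lineV v0 b) ^ 0 + 66 * ((lineU u0 a) ^ 6 * (lineV v0 b) ^ 5)
        - 11 * ((lineU u0 a) ^ 1 * (lineV v0 b) ^ 10) := by
    unfold kFv
    ring
  rw [h, coeff_sub, coeff_add, coeff_ofNat_mul, coeff_ofNat_mul]
  rw [coeff_monomial_line 11 0, coeff_monomial_line 6 5, coeff_monomial_line 1 10]
  unfold kFv
  ring

/-- `12 f - t f' = u0 f_u + v0 f_v` along the line. -/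
theorem twelve_mul_sub_X_mul_derivative :
    12 * kF (lineU u0 a) (lineV v0 b) - X * derivative (kF (lineU u0 a) (lineV v0 b)) =
      C u0 * kFu (lineU u0 a) (lineV v0 b) + C v0 * kFv (lineU u0 a) (lineV v0 b) := by
  have he := euler_kF (lineU u0 a) (lineV v0 b)
  rw [derivative_kF, derivative_lineU, derivative_lineV]
  have hU : lineU u0 a = C u0 + C a * X := rfl
  have hV : lineV v0 b = C v0 + C b * X := rfl
  linear_combination (-1 : K[X]) * he + kFu (lineU u0 a) (lineV v0 b) * hU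
    + kFv (lineU u0 a) (lineV v0 b) * hV

theorem coeff_kF_line_eleven :
    (kF (lineU u0 a) (lineV v0 b)).coeff 11 = u0 * kFu a b + v0 * kFv a b := by
  have h := congrArg (fun p : K[X] => p.coeff 11) (twelve_mul_sub_X_mul_derivative (u0 := u0) (v0 := v0) (a := a) (b := b))
  simp only [coeff_sub, coeff_add, coeff_ofNat_mul, coeff_C_mul, coeff_X_mul, coeff_derivative,
    coeff_kFu_line_eleven, coeff_kFv_line_eleven] at h
  rw [← h]
  push_cast
  ring

/-- the gradient of `f` vanishes only at the origin. -/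
theorem eq_zero_of_grad_eq_zero [CharZero K] {x y : K} (hx : kFu x y = 0) (hy : kFv x y = 0) :
    x = 0 ∧ y = 0 := by
  have hu := bezout_grad_u x y
  have hv := bezout_grad_v x y
  rw [hx, hy] at hu hv
  simp only [mul_zero, add_zero] at hu hv
  have h7500 : (7500 : K) ≠ 0 := by norm_num
  constructor
  · have := (mul_eq_zero.mp hu.symm).resolve_left h7500
    exact pow_eq_zero_iff (by norm_num) |>.mp this
  · have := (mul_eq_zero.mp hv.symm).resolve_left h7500
    exact pow_eq_zero_iff (by norm_num) |>.mp this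

/-- `f` restricted to a line not through the origin has degree at least `11`. -/
theorem le_natDegree_kF_line [CharZero K] (hδ : u0 * b - v0 * a ≠ 0) :
    11 ≤ (kF (lineU u0 a) (lineV v0 b)).natDegree := by
  by_cases h12 : kF a b = 0
  · apply le_natDegree_of_ne_zero
    rw [coeff_kF_line_eleven]
    intro h11
    -- Euler + the vanishing of the two top coefficients kill the gradient at `(a, b)`
    have he := euler_kF a b
    rw [h12, mul_zero] at he
    have h1 : (u0 * b - v0 * a) * kFu a b = 0 := by linear_combination b * h11 - v0 * he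
    have h2 : (u0 * b - v0 * a) * kFv a b = 0 := by linear_combination (-a) * h11 + u0 * he
    have hFu := (mul_eq_zero.mp h1).resolve_left hδ
    have hFv := (mul_eq_zero.mp h2).resolve_left hδ
    obtain ⟨ha, hb⟩ := eq_zero_of_grad_eq_zero hFu hFv
    apply hδ
    rw [ha, hb]
    ring
  · refine le_trans (by norm_num) (le_natDegree_of_ne_zero (n := 12) ?_)
    rw [coeff_kF_line_twelve]
    exact h12

theorem natDegree_kH_line_le : (kH (lineU u0 a) (lineV v0 b)).natDegree ≤ 20 := by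
  unfold kH lineU lineV
  compute_degree

theorem natDegree_kT_line_le : (kT (lineU u0 a) (lineV v0 b)).natDegree ≤ 30 := by
  unfold kT lineU lineV
  compute_degree

theorem natDegree_kF_line_le : (kF (lineU u0 a) (lineV v0 b)).natDegree ≤ 12 := by
  unfold kF lineU lineV
  compute_degree

theorem kF_line_ne_zero [CharZero K] (hδ : u0 * b - v0 * a ≠ 0) : kF (lineU u0 a) (lineV v0 b) ≠ 0 := by
  intro h
  have := le_natDegree_kF_line hδ
  rw [h, natDegree_zero] at this
  omega

end Line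

end Fermat.Agent.S52.CGlue.KleinLine49
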