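import Mathlib
import Fermat.Agent.S52.Klein.Defs51
import Fermat.Agent.S52.C.Irr3HIT62
import Fermat.Agent.S52.CGlue.KleinLine49

/-!
# S52, step (C), Hilbert-irreducibility backup: instantiation at the Klein pencil (helper49)

`Irr3HIT62.exists_int_modRepIsIrreducible_three` (helper62; HIT48 + NoThreeIsog62) is abstract in
the family `(c₄(t), c₆(t))`.  Here its hypotheses are discharged for the twisted Klein pencil by
means of `KleinLine49`:

* `exists_int_irreducible_three_line` : `P4 P6 : ℤ[X]` whose images over some field `K` of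
  characteristic zero are `-kH`, `-kT` restricted to a line `p₀ + t q₀` (`p₀, q₀ ∈ K²`
  independent).  Then every arithmetic progression contains arbitrarily large integers `k` with
  `P4(k)³ - P6(k)² ≠ 0` such that every integral Weierstrass model with `c₄ = P4(k)`,
  `c₆ = P6(k)` has an irreducible mod-`3` representation.
* `exists_int_irreducible_three_klein` : the same in the binding normalisation of the squad
  (`Klein.Defs51` names, `q₀ = (f_v, -f_u)(p₀)`, the line written as in `BGlue80.Upoly/Vpoly`).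
-/

set_option autoImplicit false

open Polynomial

namespace Fermat.Agent.S52.CGlue.KleinHIT49

open Fermat.Agent.S52.CGlue.KleinLine49

variable {K : Type*} [Field K] [CharZero K]

/-- **(C), Hilbert-irreducibility route, for `-kH`, `-kT` along a line.** -/
theorem exists_int_irreducible_three_line {u0 v0 a b : K} (hδ : u0 * b - v0 * a ≠ 0)
    (P4 P6 : ℤ[X])
    (h4 : P4.map (Int.castRingHom K) = -kH (lineU u0 a) (lineV v0 b))
    (h6 : P6.map (Int.castRingHom K) = -kT (lineU u0 a) (lineV v0 b))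
    (a₀ M : ℤ) (hM : M ≠ 0) (B₀ : ℤ) :
    ∃ k : ℤ, B₀ ≤ k ∧ k ≡ a₀ [ZMOD M] ∧ (P4.eval k) ^ 3 - (P6.eval k) ^ 2 ≠ 0 ∧
      ∀ W : WeierstrassCurve ℤ, W.c₄ = P4.eval k → W.c₆ = P6.eval k →
        W.ModRepIsIrreducible 3 := by
  refine Fermat.Agent.S52.C.Irr3HIT62.exists_int_modRepIsIrreducible_three P4 P6
    (kF (lineU u0 a) (lineV v0 b)) (-1728 : K) (by norm_num) 5 (by norm_num) ?_ ?_
    (separable_kF_line hδ) ?_ a₀ M hM B₀
  · rw [h4, h6]
    exact (isCoprime_kH_kT_line hδ).neg_left.neg_right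
  · rw [h4, h6, C_neg, map_ofNat C 1728]
    linear_combination (-1 : K[X]) * klein_relation (lineU u0 a) (lineV v0 b)
  · have h11 := le_natDegree_kF_line hδ
    have hinj : Function.Injective (Int.castRingHom K) := Int.cast_injective
    have h2 : P4.natDegree = (P4.map (Int.castRingHom K)).natDegree :=
      (natDegree_map_eq_of_injective hinj P4).symm
    rw [h4, natDegree_neg] at h2
    have h3 := natDegree_kH_line_le (u0 := u0) (v0 := v0) (a := a) (b := b)
    omega

open Fermat.Agent.S52.Klein in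
/-- **(C), Hilbert-irreducibility route, in the normalisation of the squad**: `p₀ = (u0, v0)`
with `kf p₀ ≠ 0`, `q₀ = (kfv, -kfu)(p₀)`, and `c₄(t) = -kH(p₀ + t q₀)`, `c₆(t) = -kT(p₀ + t q₀)`
given by integer polynomials `P4`, `P6`. -/
theorem exists_int_irreducible_three_klein {u0 v0 : K} (hf : Klein.kf u0 v0 ≠ 0)
    (P4 P6 : ℤ[X])
    (h4 : P4.map (Int.castRingHom K)
      = -Klein.kH (C u0 + X * C (Klein.kfv u0 v0)) (C v0 - X * C (Klein.kfu u0 v0)))
    (h6 : P6.map (Int.castRingHom K)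
      = -Klein.kT (C u0 + X * C (Klein.kfv u0 v0)) (C v0 - X * C (Klein.kfu u0 v0)))
    (a₀ M : ℤ) (hM : M ≠ 0) (B₀ : ℤ) :
    ∃ k : ℤ, B₀ ≤ k ∧ k ≡ a₀ [ZMOD M] ∧ (P4.eval k) ^ 3 - (P6.eval k) ^ 2 ≠ 0 ∧
      ∀ W : WeierstrassCurve ℤ, W.c₄ = P4.eval k → W.c₆ = P6.eval k →
        W.ModRepIsIrreducible 3 := by
  have hδ : u0 * (-Klein.kfu u0 v0) - v0 * Klein.kfv u0 v0 ≠ 0 := by
    have he := Klein.euler u0 v0
    have : u0 * (-Klein.kfu u0 v0) - v0 * Klein.kfv u0 v0 = -12 * Klein.kf u0 v0 := by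
      linear_combination -he
    rw [this]
    exact mul_ne_zero (by norm_num) hf
  have hU : lineU u0 (Klein.kfv u0 v0) = C u0 + X * C (Klein.kfv u0 v0) := by
    unfold lineU
    ring
  have hV : lineV v0 (-Klein.kfu u0 v0) = C v0 - X * C (Klein.kfu u0 v0) := by
    unfold lineV
    rw [C_neg]
    ring
  refine exists_int_irreducible_three_line hδ P4 P6 ?_ ?_ a₀ M hM B₀
  · rw [hU, hV, h4]
    rfl
  · rw [hU, hV, h6]
    rfl

end Fermat.Agent.S52.CGlue.KleinHIT49
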